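import Mathlib
import Fermat.Agent.S41.Spec.HK
import Fermat.Agent.S41.H105.TransferRestrict
import Fermat.Agent.S41.H924.CosetAut
import Fermat.Agent.S59.TW.H653.Diamond

/-!
# S59 / HARD, cell TW: one-prime degeneracy maps at `Γ_H`-levels — definitions (helper201)

Level `N`, a group `K` with `Γ₁(N) ≤ K ≤ Γ₀(N)` (`H653.IsMid N K`), a prime `q ∤ N`.

* `Kq N q K = K ⊓ Γ₀(N q)` (`isMid_Kq : IsMid (N q) (Kq N q K)`);
* `conjDeltaK hK q : Kq N q K →* K`, `γ ↦ δ γ δ⁻¹`, `δ = diag(q, 1)` (restriction of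
  `S41.Spec.conjDelta`);
* `r₁K`, `r₂K : X_K → X_{Kq}` (pull-back along the inclusion and along `conjDeltaK`);
* `t₁K`, `t₂K : X_{Kq} → X_K` (transfer along the inclusion and along `conjDeltaK`);
* `index_range_inclKq`, `index_range_conjDeltaK` : both ranges have index `q + 1` in `K`;
* `t₁K_r₁K`, `t₂K_r₂K` : `t₁ r₁ = q + 1 = t₂ r₂`.

The operators `T_q = H653.TK N K q`, `U_q = H653.UK (Kq N q K) q` and the diamond operators are
those of `S59/TW/H653`.
-/

set_option autoImplicit false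

namespace Fermat.Agent.S59.TW.H201

open CongruenceSubgroup Matrix.SpecialLinearGroup
open Fermat.Agent.S41.Spec Fermat.Agent.S59.TW.H653
open scoped MatrixGroups

/-! ## Generalities -/

section General

/-- Reduction of a congruence modulo `N q` to a congruence modulo `N`. -/
theorem intCast_eq_of_mul201 {N q : ℕ} {a b : ℤ}
    (h : (a : ZMod (N * q)) = (b : ZMod (N * q))) : (a : ZMod N) = (b : ZMod N) := by
  rw [ZMod.intCast_eq_intCast_iff_dvd_sub] at h ⊢
  exact dvd_trans ⟨(q : ℤ), by push_cast; ring⟩ h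

theorem Gamma1_mul_le201 (N q : ℕ) : Gamma1 (N * q) ≤ Gamma1 N := by
  intro g hg
  rw [Gamma1_mem] at hg ⊢
  obtain ⟨h1, h2, h3⟩ := hg
  refine ⟨?_, ?_, ?_⟩
  · have := intCast_eq_of_mul201 (N := N) (q := q) (a := g 0 0) (b := 1) (by simpa using h1)
    simpa using this
  · have := intCast_eq_of_mul201 (N := N) (q := q) (a := g 1 1) (b := 1) (by simpa using h2)
    simpa using this
  · have := intCast_eq_of_mul201 (N := N) (q := q) (a := g 1 0) (b := 0) (by simpa using h3)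
    simpa using this

/-- **Index transport.**  If `R = j⁻¹(R')` and `G' = j(G) R'`, then `[G : R] = [G' : R']`. -/
theorem index_eq_of_comap201 {G G' : Type*} [Group G] [Group G'] (j : G →* G')
    (R : Subgroup G) (R' : Subgroup G') (h1 : ∀ g : G, g ∈ R ↔ j g ∈ R')
    (h2 : ∀ g' : G', ∃ g : G, (j g)⁻¹ * g' ∈ R') : R.index = R'.index := by
  rw [Subgroup.index_eq_card, Subgroup.index_eq_card]
  let Φ : G ⧸ R → G' ⧸ R' := Quotient.map' (fun g => j g) (by
    intro a b hab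
    rw [QuotientGroup.leftRel_apply] at hab ⊢
    rw [← map_inv, ← map_mul]
    exact (h1 _).mp hab)
  refine Nat.card_eq_of_bijective Φ ⟨?_, ?_⟩
  · intro x y
    induction x using QuotientGroup.induction_on with
    | H a =>
      induction y using QuotientGroup.induction_on with
      | H b =>
        intro hxy
        have h3 : ((j a : G') : G' ⧸ R') = ((j b : G') : G' ⧸ R') := hxy
        rw [QuotientGroup.eq] at h3 ⊢
        rw [← map_inv, ← map_mul] at h3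
        exact (h1 _).mpr h3
  · intro y
    induction y using QuotientGroup.induction_on with
    | H b =>
      obtain ⟨g, hg⟩ := h2 b
      refine ⟨(g : G ⧸ R), ?_⟩
      show ((j g : G') : G' ⧸ R') = ((b : G') : G' ⧸ R')
      rw [QuotientGroup.eq]
      exact hg

end General

/-! ## The groups -/

section Groups

variable {N : ℕ} {K : Subgroup SL(2, ℤ)}

/-- `K_{N q} = K ⊓ Γ₀(N q)`. -/
def Kq (N q : ℕ) (K : Subgroup SL(2, ℤ)) : Subgroup SL(2, ℤ) := K ⊓ Gamma0 (N * q)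

theorem Kq_le (N q : ℕ) (K : Subgroup SL(2, ℤ)) : Kq N q K ≤ K := inf_le_left

theorem Kq_le_Gamma0 (N q : ℕ) (K : Subgroup SL(2, ℤ)) : Kq N q K ≤ Gamma0 (N * q) :=
  inf_le_right

theorem mem_Kq {q : ℕ} {g : SL(2, ℤ)} : g ∈ Kq N q K ↔ g ∈ K ∧ g ∈ Gamma0 (N * q) := Iff.rfl

theorem isMid_Kq (hK : IsMid N K) (q : ℕ) : IsMid (N * q) (Kq N q K) where
  le := Kq_le_Gamma0 N q K
  ge := fun _ hg => ⟨hK.ge (Gamma1_mul_le201 N q hg), Gamma1_in_Gamma0 (N * q) hg⟩

/-- The inclusion `K_{N q} → K`. -/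
def inclKq (N q : ℕ) (K : Subgroup SL(2, ℤ)) : Kq N q K →* K := Subgroup.inclusion (Kq_le N q K)

/-- The inclusion `K_{N q} → Γ₀(N q)`. -/
def toGamma0q (N q : ℕ) (K : Subgroup SL(2, ℤ)) : Kq N q K →* Gamma0 (N * q) :=
  Subgroup.inclusion (Kq_le_Gamma0 N q K)

@[simp] theorem coe_inclKq {q : ℕ} (γ : Kq N q K) :
    ((inclKq N q K γ : K) : SL(2, ℤ)) = γ := rfl

@[simp] theorem coe_toGamma0q {q : ℕ} (γ : Kq N q K) :
    ((toGamma0q N q K γ : Gamma0 (N * q)) : SL(2, ℤ)) = γ := rfl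

theorem inclKq_injective (N q : ℕ) (K : Subgroup SL(2, ℤ)) :
    Function.Injective (inclKq N q K) := Subgroup.inclusion_injective _

theorem toGamma0q_injective (N q : ℕ) (K : Subgroup SL(2, ℤ)) :
    Function.Injective (toGamma0q N q K) := Subgroup.inclusion_injective _

/-- `c_δ` does not change the lower right entry. -/
theorem dUnit_conjDelta (N q : ℕ) (γ : Gamma0 (N * q)) :
    dUnit N (conjDelta N q γ) = dUnit N (incl N q γ) := by
  apply Units.ext
  rw [coe_dUnit, coe_dUnit]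
  rfl

/-- `dUnit` at level `N q` lifts `dUnit` at level `N`. -/
theorem unitsMap_dUnit (N q : ℕ) (γ : Gamma0 (N * q)) :
    ZMod.unitsMap (Dvd.intro q rfl) (dUnit (N * q) γ) = dUnit N (incl N q γ) := by
  apply Units.ext
  rw [ZMod.unitsMap_def, Units.coe_map, coe_dUnit, coe_dUnit]
  simp only [MonoidHom.coe_coe, map_intCast]
  rfl

theorem conjDelta_mem (hK : IsMid N K) (q : ℕ) (γ : Kq N q K) :
    ((conjDelta N q (toGamma0q N q K γ) : Gamma0 N) : SL(2, ℤ)) ∈ K :=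
  hK.mem_of_dUnit_eq (k := incl N q (toGamma0q N q K γ)) γ.2.1 (dUnit_conjDelta N q _)

/-- `c_δ : K_{N q} →* K`, `γ ↦ δ γ δ⁻¹ = [[a, q b], [c / q, d]]`. -/
def conjDeltaK (hK : IsMid N K) (q : ℕ) : Kq N q K →* K :=
  (((Gamma0 N).subtype.comp (conjDelta N q)).comp (toGamma0q N q K)).codRestrict K
    (conjDelta_mem hK q)

@[simp] theorem inclK_conjDeltaK (hK : IsMid N K) (q : ℕ) (γ : Kq N q K) :
    inclK hK (conjDeltaK hK q γ) = conjDelta N q (toGamma0q N q K γ) := rfl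

@[simp] theorem inclK_inclKq (hK : IsMid N K) (q : ℕ) (γ : Kq N q K) :
    inclK hK (inclKq N q K γ) = incl N q (toGamma0q N q K γ) := rfl

theorem conjDeltaK_injective (hK : IsMid N K) {q : ℕ} (hq : q ≠ 0) :
    Function.Injective (conjDeltaK hK q) := by
  intro γ γ' h
  apply toGamma0q_injective N q K
  apply Fermat.Agent.S41.H105.conjDelta_injective N hq
  have := congrArg (inclK hK) h
  simpa using this

/-- An element of `Γ₀(N q)` whose image in `Γ₀(N)` lies in `K`, as an element of `K_{N q}`. -/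
def ofGamma0q (N q : ℕ) (K : Subgroup SL(2, ℤ)) (s : Gamma0 (N * q))
    (hs : (s : SL(2, ℤ)) ∈ K) : Kq N q K := ⟨s, hs, s.2⟩

@[simp] theorem toGamma0q_ofGamma0q {q : ℕ} (s : Gamma0 (N * q)) (hs : (s : SL(2, ℤ)) ∈ K) :
    toGamma0q N q K (ofGamma0q N q K s hs) = s := rfl

theorem mem_range_inclKq_iff {q : ℕ} (hK : IsMid N K) (k : K) :
    k ∈ (inclKq N q K).range ↔ inclK hK k ∈ (incl N q).range := by
  constructor
  · rintro ⟨γ, rfl⟩
    exact ⟨toGamma0q N q K γ, rfl⟩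
  · rintro ⟨s, hs⟩
    have hsK : (s : SL(2, ℤ)) ∈ K := by
      have : (s : SL(2, ℤ)) = (k : SL(2, ℤ)) := congrArg (fun x : Gamma0 N => (x : SL(2, ℤ))) hs
      rw [this]
      exact k.2
    refine ⟨ofGamma0q N q K s hsK, ?_⟩
    apply inclK_injective hK
    rw [inclK_inclKq, toGamma0q_ofGamma0q, hs]

theorem mem_range_conjDeltaK_iff {q : ℕ} (hK : IsMid N K) (k : K) :
    k ∈ (conjDeltaK hK q).range ↔ inclK hK k ∈ (conjDelta N q).range := by
  constructor
  · rintro ⟨γ, rfl⟩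
    exact ⟨toGamma0q N q K γ, rfl⟩
  · rintro ⟨s, hs⟩
    have hsK : (s : SL(2, ℤ)) ∈ K := by
      have h1 : dUnit N (incl N q s) = dUnit N (inclK hK k) := by
        rw [← dUnit_conjDelta, hs]
      exact hK.mem_of_dUnit_eq (g := incl N q s) (k := inclK hK k) k.2 h1
    refine ⟨ofGamma0q N q K s hsK, ?_⟩
    apply inclK_injective hK
    rw [inclK_conjDeltaK, toGamma0q_ofGamma0q, hs]

/-- Every class of `(ℤ/N)ˣ` is the lower right entry of an element of `Γ₀(N q)`. -/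
theorem exists_Gamma0q_dUnit (N q : ℕ) [NeZero (N * q)] (u : (ZMod N)ˣ) :
    ∃ s : Gamma0 (N * q), dUnit N (incl N q s) = u := by
  obtain ⟨u', hu'⟩ := ZMod.unitsMap_surjective (Dvd.intro q rfl : N ∣ N * q) u
  obtain ⟨s, hs⟩ := dUnit_surjective (M := N * q) u'
  exact ⟨s, by rw [← unitsMap_dUnit, hs, hu']⟩

theorem index_range_inclKq (hK : IsMid N K) {q : ℕ} (hN : N ≠ 0) (hq : q.Prime)
    (hqN : ¬ q ∣ N) : (inclKq N q K).range.index = q + 1 := by
  have : NeZero (N * q) := ⟨Nat.mul_ne_zero hN hq.ne_zero⟩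
  rw [← Fermat.Agent.S41.H105.index_range_incl hN hq hqN]
  refine index_eq_of_comap201 (inclK hK) _ _ (mem_range_inclKq_iff hK) ?_
  intro g'
  obtain ⟨s, hs⟩ := exists_Gamma0q_dUnit N q (dUnit N g')
  have hk : ((g' * (incl N q s)⁻¹ : Gamma0 N) : SL(2, ℤ)) ∈ K := by
    apply hK.mem_of_dUnit_eq_one
    rw [map_mul, map_inv, hs, mul_inv_cancel]
  refine ⟨⟨_, hk⟩, s, ?_⟩
  apply Subtype.ext
  simp [inclK, mul_assoc]

theorem index_range_conjDeltaK (hK : IsMid N K) {q : ℕ} (hN : N ≠ 0) (hq : q.Prime)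
    (hqN : ¬ q ∣ N) : (conjDeltaK hK q).range.index = q + 1 := by
  have : NeZero (N * q) := ⟨Nat.mul_ne_zero hN hq.ne_zero⟩
  rw [← Fermat.Agent.S41.H105.index_range_conjDelta hN hq hqN]
  refine index_eq_of_comap201 (inclK hK) _ _ (mem_range_conjDeltaK_iff hK) ?_
  intro g'
  obtain ⟨s, hs⟩ := exists_Gamma0q_dUnit N q (dUnit N g')
  have hk : ((g' * (conjDelta N q s)⁻¹ : Gamma0 N) : SL(2, ℤ)) ∈ K := by
    apply hK.mem_of_dUnit_eq_one
    rw [map_mul, map_inv, dUnit_conjDelta, hs, mul_inv_cancel]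
  refine ⟨⟨_, hk⟩, s, ?_⟩
  apply Subtype.ext
  simp [inclK, mul_assoc]

theorem finiteIndex_range_inclKq (hK : IsMid N K) {q : ℕ} (hN : N ≠ 0) (hq : q.Prime)
    (hqN : ¬ q ∣ N) : (inclKq N q K).range.FiniteIndex :=
  ⟨by rw [index_range_inclKq hK hN hq hqN]; exact Nat.succ_ne_zero q⟩

theorem finiteIndex_range_conjDeltaK (hK : IsMid N K) {q : ℕ} (hN : N ≠ 0) (hq : q.Prime)
    (hqN : ¬ q ∣ N) : (conjDeltaK hK q).range.FiniteIndex :=
  ⟨by rw [index_range_conjDeltaK hK hN hq hqN]; exact Nat.succ_ne_zero q⟩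

end Groups

/-! ## The operators -/

section Operators

variable {N : ℕ} {K : Subgroup SL(2, ℤ)} {A : Type*} [AddCommGroup A]

/-- `r₁ : X_K → X_{K_{N q}}`, restriction. -/
def r₁K (N q : ℕ) (K : Subgroup SL(2, ℤ)) (φ : Additive K →+ A) : Additive (Kq N q K) →+ A :=
  φ.comp (MonoidHom.toAdditive (inclKq N q K))

/-- `r₂ : X_K → X_{K_{N q}}`, `φ ↦ φ ∘ c_δ`. -/
def r₂K (hK : IsMid N K) (q : ℕ) (φ : Additive K →+ A) : Additive (Kq N q K) →+ A :=
  φ.comp (MonoidHom.toAdditive (conjDeltaK hK q))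

/-- `t₁ : X_{K_{N q}} → X_K`, the transfer along `K_{N q} ≤ K`. -/
noncomputable def t₁K (N q : ℕ) (K : Subgroup SL(2, ℤ)) (ψ : Additive (Kq N q K) →+ A) :
    Additive K →+ A :=
  transferAlong (inclKq N q K) ψ

/-- `t₂ : X_{K_{N q}} → X_K`, the transfer along `c_δ : K_{N q} → K`. -/
noncomputable def t₂K (hK : IsMid N K) (q : ℕ) (ψ : Additive (Kq N q K) →+ A) :
    Additive K →+ A :=
  transferAlong (conjDeltaK hK q) ψ

theorem r₁K_eq_resK (N q : ℕ) (K : Subgroup SL(2, ℤ)) (φ : Additive K →+ A) :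
    r₁K N q K φ = resK (Kq_le N q K) φ := rfl

theorem t₁K_eq_coresK (N q : ℕ) (K : Subgroup SL(2, ℤ)) (ψ : Additive (Kq N q K) →+ A) :
    t₁K N q K ψ = coresK (Kq_le N q K) ψ := rfl

@[simp] theorem r₁K_apply (N q : ℕ) (K : Subgroup SL(2, ℤ)) (φ : Additive K →+ A)
    (γ : Kq N q K) : r₁K N q K φ (Additive.ofMul γ) = φ (Additive.ofMul (inclKq N q K γ)) := rfl

@[simp] theorem r₂K_apply (hK : IsMid N K) (q : ℕ) (φ : Additive K →+ A) (γ : Kq N q K) :
    r₂K hK q φ (Additive.ofMul γ) = φ (Additive.ofMul (conjDeltaK hK q γ)) := rfl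

/-- `t₁ r₁ = q + 1`. -/
theorem t₁K_r₁K (hK : IsMid N K) {q : ℕ} (hN : N ≠ 0) (hq : q.Prime) (hqN : ¬ q ∣ N)
    (φ : Additive K →+ A) : t₁K N q K (r₁K N q K φ) = (q + 1) • φ := by
  show transferAlong (inclKq N q K) (φ.comp (MonoidHom.toAdditive (inclKq N q K))) = _
  rw [Fermat.Agent.S41.H105.transferAlong_comp (inclKq N q K) (inclKq_injective N q K)
    (finiteIndex_range_inclKq hK hN hq hqN) φ, index_range_inclKq hK hN hq hqN]

/-- `t₂ r₂ = q + 1`. -/
theorem t₂K_r₂K (hK : IsMid N K) {q : ℕ} (hN : N ≠ 0) (hq : q.Prime) (hqN : ¬ q ∣ N)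
    (φ : Additive K →+ A) : t₂K hK q (r₂K hK q φ) = (q + 1) • φ := by
  show transferAlong (conjDeltaK hK q) (φ.comp (MonoidHom.toAdditive (conjDeltaK hK q))) = _
  rw [Fermat.Agent.S41.H105.transferAlong_comp (conjDeltaK hK q)
    (conjDeltaK_injective hK hq.ne_zero) (finiteIndex_range_conjDeltaK hK hN hq hqN) φ,
    index_range_conjDeltaK hK hN hq hqN]

end Operators

end Fermat.Agent.S59.TW.H201
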