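import Mathlib
import Fermat.Agent.S41.H761.HT
import Fermat.Agent.S59.TW.H201.KDegDefs

/-!
# S59 / HARD, cell TW: Hecke operators and transfers at `Γ_H`-levels — general lemma (helper201)

* `sysTransfer_transferAlong201` : the commutation lemma of `S41/H761/HT.lean`
  (`heckeTransfer_transferAlong`) for ARBITRARY groups `H`, `G` embedded in an ambient group and
  two possibly different families of representatives `ρ` (for `G`) and `ρ'` (for `H`);
* `h2_incl_T201`, `h2_conj201`, `h2_incl_U201` : the three coset separation statements at the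
  `Γ₀`-levels `N`, `N q` (extracted from `S41/H761/HT.lean`).
-/

set_option autoImplicit false

namespace Fermat.Agent.S59.TW.H201

open CongruenceSubgroup Matrix.SpecialLinearGroup ModularForm
open Fermat.Agent.S29.H642 Fermat.Agent.S41.Spec Fermat.Agent.S41.H761 Fermat.Agent.S59.TW.H653
open P2MW.S_ModularForm_heckeT_slash_eq_self_of_mem_Gamma0.ModularForm.HeckeSlashInvariance
open scoped MatrixGroups

section General

variable {𝒢 G H : Type*} [Group 𝒢] [Group G] [Group H] {A : Type*} [AddCommGroup A]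
  {I J : Type*} [Fintype I] [Fintype J] {ιG : G →* 𝒢} {ιH : H →* 𝒢} {ρ : I → 𝒢} {ρ' : J → 𝒢}

/-- **General commutation lemma** (any groups, two families of representatives).
`f : H →* G` injective with finite index range, realized by conjugation by `d`; `ρ` a coset system
for `G`, `ρ'` a coset system for `H` with the same number of representatives; the conjugated
representatives `d ρ'_y d⁻¹` are representatives `ρ` up to `G`, and the cosets of the family
`d ρ'_y d⁻¹ x⁻¹` are distinct.  Then the operators of `ρ`, `ρ'` commute with the transfer along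
`f`. -/
theorem sysTransfer_transferAlong201 (hιG : Function.Injective ιG)
    (hcard : Fintype.card J = Fintype.card I)
    (sysN : IsCosetSystem ιG ιG ρ) (sysM : IsCosetSystem ιH ιH ρ') (f : H →* G)
    (hf : Function.Injective f) [f.range.FiniteIndex] (d : 𝒢)
    (hd : ∀ g : H, d * ιH g = (ιG.comp f) g * d)
    (H1 : ∀ y : J, ∃ (u : G) (y' : I), d * ρ' y * d⁻¹ = ιG u * ρ y')
    (H2 : ∀ (y y' : J) (m : G) (g : H) (Q : 𝒢),
      d * Q = ιG m * d → ρ' y * Q = ιH g * ρ' y' → m ∈ f.range)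
    (ψ : Additive H →+ A) :
    sysN.transfer (transferAlong f ψ) = transferAlong f (sysM.transfer ψ) := by
  classical
  let _ : Fintype (G ⧸ f.range) := f.range.fintypeQuotientOfFiniteIndex
  have sysT' := sysM.conj d hd hd
  have sysTr := IsCosetSystem.ofTransfer f hf ιG hιG
  -- family A
  have famA := sysTr.prod sysN (by
    intro x x' y y' g e
    have e2 : ρ y = ιG (x.out * f g * (x'.out)⁻¹) * ρ y' := by
      have h1 : ρ y = ιG x.out * (ιG (x.out)⁻¹ * ρ y) := by
        rw [map_inv, mul_inv_cancel_left]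
      rw [h1, e]
      simp only [MonoidHom.comp_apply, map_mul, mul_assoc]
    have hy := sysN.eq_of_mul _ _ _ e2
    subst hy
    have e3 : ιG (x.out * f g * (x'.out)⁻¹) = 1 := by
      have h2 : ιG (x.out * f g * (x'.out)⁻¹) * ρ y = 1 * ρ y := by
        rw [one_mul]; exact e2.symm
      exact mul_right_cancel h2
    have e4 : x.out * f g * (x'.out)⁻¹ = 1 := hιG (e3.trans (map_one _).symm)
    have e5 : f g = (x.out)⁻¹ * x'.out := by
      have := congrArg (fun t => (x.out)⁻¹ * t * x'.out) e4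
      simpa [mul_assoc] using this
    have hmem : (x.out)⁻¹ * x'.out ∈ f.range := ⟨g, e5⟩
    have h3 := QuotientGroup.eq.mpr hmem
    rw [QuotientGroup.out_eq', QuotientGroup.out_eq'] at h3
    exact ⟨h3, rfl⟩)
  -- family B
  have famB := sysT'.prod sysTr (by
    intro y y' x x' g e
    have hfg : (ιG.comp f) g = d * ιH g * d⁻¹ := by
      rw [hd g, mul_inv_cancel_right]
    have hQ : ρ' y * (d⁻¹ * ιG ((x.out)⁻¹ * x'.out) * d) = ιH g * ρ' y' := by
      have e' := congrArg (fun t => d⁻¹ * t * (ιG (x'.out)⁻¹)⁻¹ * d) e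
      simp only [hfg, mul_assoc, inv_mul_cancel_left, inv_mul_cancel, mul_one, map_inv,
        inv_inv] at e'
      simp only [map_mul, map_inv, mul_assoc]
      exact e'
    have hmem := H2 y y' ((x.out)⁻¹ * x'.out) g (d⁻¹ * ιG ((x.out)⁻¹ * x'.out) * d)
      (by simp only [mul_assoc, mul_inv_cancel_left]) hQ
    have hx : x = x' := by
      have h3 := QuotientGroup.eq.mpr hmem
      rwa [QuotientGroup.out_eq', QuotientGroup.out_eq'] at h3
    subst hx
    refine ⟨?_, rfl⟩
    have e2 := mul_right_cancel (e.trans (mul_assoc _ _ _).symm)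
    exact sysT'.eq_of_mul _ _ _ e2)
  rw [transferAlong_eq f hf ιG hιG, transferAlong_eq f hf ιG hιG,
    ← IsCosetSystem.conj_transfer sysM d hd hd]
  rw [IsCosetSystem.transfer_comp sysTr sysN famA, IsCosetSystem.transfer_comp sysT' sysTr famB]
  symm
  refine IsCosetSystem.transfer_eq_of_le_of_card famB famA ?_ ?_ ψ
  · rw [Fintype.card_prod, Fintype.card_prod, mul_comm, hcard]
  · rintro ⟨y, x⟩
    obtain ⟨u, y₁, hu⟩ := H1 y
    set w : G := u * sysN.coc y₁ (x.out)⁻¹ with hw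
    have hmem : (w⁻¹)⁻¹ * ((w⁻¹ : G) : G ⧸ f.range).out ∈ f.range :=
      QuotientGroup.eq.mp (QuotientGroup.out_eq' _).symm
    obtain ⟨g, hg⟩ := hmem
    rw [inv_inv] at hg
    refine ⟨(((w⁻¹ : G) : G ⧸ f.range), sysN.act y₁ (x.out)⁻¹), g, ?_⟩
    rw [hu, mul_assoc, sysN.spec y₁ (x.out)⁻¹, MonoidHom.comp_apply, hg]
    simp only [map_mul, map_inv, mul_assoc, hw]
    rw [mul_inv_cancel_left]

end General

/-! ## Coset separation at the `Γ₀`-levels -/

section Level

variable {N q l : ℕ} [Fact l.Prime]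

/-- Separation for the inclusion, representatives of `T_l`. -/
theorem h2_incl_T201 (hl' : ¬ l ∣ N * q) (y y' : OnePoint (ZMod l)) (m : Gamma0 N)
    (g : Gamma0 (N * q)) (e : heckeRep l y * ιN N m = ιN (N * q) g * heckeRep l y') :
    m ∈ (incl N q).range := by
  obtain ⟨a, b, d, hα, had⟩ := heckeRep_form (l := l) y
  obtain ⟨a', b', d', hα', had'⟩ := heckeRep_form (l := l) y'
  have e10 := congrArg (fun M : GL (Fin 2) ℝ => (M : Matrix (Fin 2) (Fin 2) ℝ) 1 0) e
  simp only [coe_mul_apply, coe_ιN_apply, hα, hα', Matrix.of_apply, Matrix.cons_val',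
    Matrix.cons_val_zero, Matrix.cons_val_one, Matrix.cons_val_fin_one, zero_mul, zero_add,
    mul_zero, add_zero] at e10
  have e10' : d * (m : SL(2, ℤ)) 1 0 = (g : SL(2, ℤ)) 1 0 * a' := by exact_mod_cast e10
  have hg : ((N * q : ℕ) : ℤ) ∣ (g : SL(2, ℤ)) 1 0 := dvd_of_mem_Gamma0 g.2
  have hcop : IsCoprime (d : ℤ) ((N * q : ℕ) : ℤ) := by
    have hl1 : IsCoprime (l : ℤ) ((N * q : ℕ) : ℤ) := by
      rw [Int.isCoprime_iff_gcd_eq_one, Int.gcd_natCast_natCast]
      exact (Fact.out : l.Prime).coprime_iff_not_dvd.mpr hl'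
    exact IsCoprime.of_mul_left_right (by rw [had]; exact hl1)
  have hdvd : ((N * q : ℕ) : ℤ) ∣ (m : SL(2, ℤ)) 1 0 := by
    have h1 : ((N * q : ℕ) : ℤ) ∣ d * (m : SL(2, ℤ)) 1 0 := by
      rw [e10']; exact dvd_mul_of_dvd_left hg _
    exact hcop.symm.dvd_of_dvd_mul_left h1
  rw [Fermat.Agent.S41.H105.range_incl, Subgroup.mem_subgroupOf]
  exact mem_Gamma0_of_dvd hdvd

/-- Separation for `c_δ`, representatives `heckeRep l` (`l ∤ q`; `l ∣ N` allowed). -/
theorem h2_conj201 (hq : q ≠ 0) (hlq : ¬ l ∣ q) (y y' : OnePoint (ZMod l)) (m : Gamma0 N)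
    (g : Gamma0 (N * q)) (Q : GL (Fin 2) ℝ)
    (hQ : heckeDiagMatrix q * Q = ιN N m * heckeDiagMatrix q)
    (e : heckeRep l y * Q = ιN (N * q) g * heckeRep l y') :
    m ∈ (conjDelta N q).range := by
  obtain ⟨a, b, d, hα, had⟩ := heckeRep_form (l := l) y
  obtain ⟨a', b', d', hα', had'⟩ := heckeRep_form (l := l) y'
  have q01 := congrArg (fun M : GL (Fin 2) ℝ => (M : Matrix (Fin 2) (Fin 2) ℝ) 0 1) hQ
  have q11 := congrArg (fun M : GL (Fin 2) ℝ => (M : Matrix (Fin 2) (Fin 2) ℝ) 1 1) hQ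
  have e01 := congrArg (fun M : GL (Fin 2) ℝ => (M : Matrix (Fin 2) (Fin 2) ℝ) 0 1) e
  simp only [coe_mul_apply, coe_ιN_apply, val_heckeDiagMatrix hq, Matrix.of_apply,
    Matrix.cons_val', Matrix.cons_val_zero, Matrix.cons_val_one, Matrix.cons_val_fin_one,
    zero_mul, zero_add, mul_zero, add_zero, one_mul, mul_one] at q01 q11
  simp only [coe_mul_apply, coe_ιN_apply, hα, hα', Matrix.of_apply, Matrix.cons_val',
    Matrix.cons_val_zero, Matrix.cons_val_one, Matrix.cons_val_fin_one] at e01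
  rw [q11] at e01
  have key : (a : ℝ) * (((m : SL(2, ℤ)) 0 1 : ℤ) : ℝ) =
      (q : ℝ) * ((((g : SL(2, ℤ)) 0 0 : ℤ) : ℝ) * b' + (((g : SL(2, ℤ)) 0 1 : ℤ) : ℝ) * d'
        - b * (((m : SL(2, ℤ)) 1 1 : ℤ) : ℝ)) := by
    rw [← q01]
    linear_combination (q : ℝ) * e01
  have key' : a * (m : SL(2, ℤ)) 0 1 =
      q * ((g : SL(2, ℤ)) 0 0 * b' + (g : SL(2, ℤ)) 0 1 * d' - b * (m : SL(2, ℤ)) 1 1) := by
    exact_mod_cast key
  have hcop : IsCoprime (a : ℤ) (q : ℤ) := by
    have hl1 : IsCoprime (l : ℤ) (q : ℤ) := by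
      rw [Int.isCoprime_iff_gcd_eq_one, Int.gcd_natCast_natCast]
      exact (Fact.out : l.Prime).coprime_iff_not_dvd.mpr hlq
    exact IsCoprime.of_mul_left_left (by rw [had]; exact hl1)
  have hdvd : (q : ℤ) ∣ (m : SL(2, ℤ)) 0 1 :=
    hcop.symm.dvd_of_dvd_mul_left ⟨_, key'⟩
  exact (Fermat.Agent.S41.H105.mem_range_conjDelta_iff N hq m).mpr hdvd

/-- Separation for the inclusion, representatives of `U_l` (`l ∣ N`, `q ∤ N` prime). -/
theorem h2_incl_U201 (hq : q.Prime) (hqN : ¬ q ∣ N) (hl : l ∣ N) (j j' : ZMod l)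
    (m : Gamma0 N) (g : Gamma0 (N * q))
    (e : repsU l j * ιN N m = ιN (N * q) g * repsU l j') :
    m ∈ (incl N q).range := by
  have hl0 : l ≠ 0 := (Fact.out : l.Prime).ne_zero
  have e10 := congrArg (fun M : GL (Fin 2) ℝ => (M : Matrix (Fin 2) (Fin 2) ℝ) 1 0) e
  simp only [repsU, coe_mul_apply, coe_ιN_apply, val_heckeMatrix hl0, Matrix.of_apply,
    Matrix.cons_val', Matrix.cons_val_zero, Matrix.cons_val_one, Matrix.cons_val_fin_one,
    zero_mul, zero_add, mul_zero, add_zero, mul_one] at e10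
  have e10' : (l : ℤ) * (m : SL(2, ℤ)) 1 0 = (g : SL(2, ℤ)) 1 0 := by exact_mod_cast e10
  have hg : ((N * q : ℕ) : ℤ) ∣ (g : SL(2, ℤ)) 1 0 := dvd_of_mem_Gamma0 g.2
  have hqg : (q : ℤ) ∣ (l : ℤ) * (m : SL(2, ℤ)) 1 0 := by
    rw [e10']
    exact dvd_trans ⟨(N : ℤ), by push_cast; ring⟩ hg
  have hqq' : ¬ q ∣ l := fun h => hqN (dvd_trans h hl)
  have hcop : IsCoprime (q : ℤ) (l : ℤ) := by
    rw [Int.isCoprime_iff_gcd_eq_one, Int.gcd_natCast_natCast]
    exact hq.coprime_iff_not_dvd.mpr hqq'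
  exact (Fermat.Agent.S41.H105.mem_range_incl_iff hq hqN m).mpr (hcop.dvd_of_dvd_mul_left hqg)

end Level

end Fermat.Agent.S59.TW.H201
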