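import Mathlib
import Fermat.Agent.S59.TW.H201.KDegHeckeGen

/-!
# S59 / HARD, cell TW: `T_ℓ`, `U_{q'}` commute with the transfers `t₁K`, `t₂K` (helper201)

Level `N`, a group `K` with `Γ₁(N) ≤ K ≤ Γ₀(N)`, a prime `q ∤ N`, `K_q = K ⊓ Γ₀(N q)`.

* `TK_t₁K`, `TK_t₂K` : `T_ℓ (t_i ψ) = t_i (T_ℓ ψ)` for a prime `ℓ ∤ N q`;
* `UK_t₁K`, `UK_t₂K` : `U_{q'} (t_i ψ) = t_i (U_{q'} ψ)` for a prime `q' ∣ N`.

The operators are `H653.TK`, `H653.UK`; the transfers are those of `KDegDefs.lean`.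
-/

set_option autoImplicit false

namespace Fermat.Agent.S59.TW.H201

open CongruenceSubgroup Matrix.SpecialLinearGroup ModularForm
open Fermat.Agent.S29.H642 Fermat.Agent.S41.Spec Fermat.Agent.S41.H761 Fermat.Agent.S59.TW.H653
open P2MW.S_ModularForm_heckeT_slash_eq_self_of_mem_Gamma0.ModularForm.HeckeSlashInvariance
open scoped MatrixGroups

/-! ## Normalised representatives -/

section Norm

variable {N q : ℕ} {K : Subgroup SL(2, ℤ)}

/-- A normalised matrix at level `N q` is normalised at level `N`. -/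
theorem isNormRep_of_mul201 {X : GL (Fin 2) ℝ} (hX : IsNormRep (N * q) X) : IsNormRep N X := by
  obtain ⟨a, b, c, d, hc, ha, hXe⟩ := hX
  have hNq : (N : ℤ) ∣ ((N * q : ℕ) : ℤ) := ⟨(q : ℤ), by push_cast; ring⟩
  exact ⟨a, b, c, d, dvd_trans hNq hc, dvd_trans hNq ha, hXe⟩

/-- The conjugate by `δ = diag(q, 1)` of a normalised matrix at level `N q` is normalised at
level `N`. -/
theorem isNormRep_conj201 (hq : q ≠ 0) {X : GL (Fin 2) ℝ} (hX : IsNormRep (N * q) X) :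
    IsNormRep N (heckeDiagMatrix q * X * (heckeDiagMatrix q)⁻¹) := by
  obtain ⟨a, b, c, d, hc, ha, hXe⟩ := hX
  obtain ⟨k, hk⟩ := hc
  have hNq : (N : ℤ) ∣ ((N * q : ℕ) : ℤ) := ⟨(q : ℤ), by push_cast; ring⟩
  refine ⟨a, q * b, N * k, d, Dvd.intro _ rfl, dvd_trans hNq ha, ?_⟩
  have hqR : (q : ℝ) ≠ 0 := by exact_mod_cast hq
  -- the matrix identity `M δ = δ X`
  have hM : (!![(a : ℝ), ((q * b : ℤ) : ℝ); ((N * k : ℤ) : ℝ), (d : ℝ)] :
      Matrix (Fin 2) (Fin 2) ℝ) * ((heckeDiagMatrix q : GL (Fin 2) ℝ) : Matrix (Fin 2) (Fin 2) ℝ)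
      = ((heckeDiagMatrix q : GL (Fin 2) ℝ) : Matrix (Fin 2) (Fin 2) ℝ) *
        (X : Matrix (Fin 2) (Fin 2) ℝ) := by
    rw [hXe, val_heckeDiagMatrix hq, hk]
    ext i j
    fin_cases i <;> fin_cases j <;>
      simp [Matrix.mul_apply, Fin.sum_univ_two] <;> ring
  have h1 : ((heckeDiagMatrix q * X * (heckeDiagMatrix q)⁻¹ : GL (Fin 2) ℝ) :
      Matrix (Fin 2) (Fin 2) ℝ)
      = ((heckeDiagMatrix q : GL (Fin 2) ℝ) : Matrix (Fin 2) (Fin 2) ℝ) *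
        (X : Matrix (Fin 2) (Fin 2) ℝ) *
        (((heckeDiagMatrix q)⁻¹ : GL (Fin 2) ℝ) : Matrix (Fin 2) (Fin 2) ℝ) := by
    simp only [Units.val_mul]
  have h2 : ((heckeDiagMatrix q : GL (Fin 2) ℝ) : Matrix (Fin 2) (Fin 2) ℝ) *
      (((heckeDiagMatrix q)⁻¹ : GL (Fin 2) ℝ) : Matrix (Fin 2) (Fin 2) ℝ) = 1 :=
    Units.mul_inv _
  rw [h1, ← hM, Matrix.mul_assoc, h2, Matrix.mul_one]

/-- If `X = u Y` with `X`, `Y` normalised at level `N` and `u ∈ Γ₀(N)`, then `u ∈ K`. -/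
theorem mem_of_normRep201 (hK : IsMid N K) {X Y : GL (Fin 2) ℝ} (hX : IsNormRep N X)
    (hY : IsNormRep N Y) (u : Gamma0 N) (e : X = ιN N u * Y) : (u : SL(2, ℤ)) ∈ K := by
  obtain ⟨hu, h1⟩ := normRep_coc hX hY (g := (1 : Gamma0 N)) (g' := (u : SL(2, ℤ)))
    (by rw [map_one, mul_one]; exact e)
  apply hK.mem_of_dUnit_eq_one (g := u)
  have h2 : (⟨(u : SL(2, ℤ)), hu⟩ : Gamma0 N) = u := Subtype.ext rfl
  rw [h2, map_one] at h1
  exact h1

/-- From a `Γ₀(N)`-relation between normalised matrices to a `K`-relation. -/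
theorem h1_of_gamma0_201 (hK : IsMid N K) {X : GL (Fin 2) ℝ} (hX : IsNormRep N X)
    {I : Type*} {ρ : I → GL (Fin 2) ℝ} (hρ : ∀ i, IsNormRep N (ρ i))
    (h : ∃ (u : Gamma0 N) (i : I), X = ιN N u * ρ i) :
    ∃ (u : K) (i : I), X = ιK K u * ρ i := by
  obtain ⟨u, i, e⟩ := h
  exact ⟨⟨(u : SL(2, ℤ)), mem_of_normRep201 hK hX (hρ i) u e⟩, i, e⟩

end Norm

/-! ## The representatives of `T_ℓ` -/

section TwistT

variable {N q ℓ : ℕ} [Fact ℓ.Prime]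

omit [Fact ℓ.Prime] in
theorem repsT_apply201 (M : ℕ) (y : OnePoint (ZMod ℓ)) :
    repsT M ℓ y = ιN M (tauT M ℓ y) * heckeRep ℓ y := congrFun (repsT_eq_twist M ℓ) y

omit [Fact ℓ.Prime] in
/-- `Γ₀`-level form of the conjugation property for `repsT`. -/
theorem h1_repsT_gamma0_201 (f₀ : Gamma0 (N * q) →* Gamma0 N) (d : GL (Fin 2) ℝ)
    (hd : ∀ g : Gamma0 (N * q), d * ιN (N * q) g = ιN N (f₀ g) * d)
    (h : ∀ y : OnePoint (ZMod ℓ), ∃ (u : Gamma0 N) (y' : OnePoint (ZMod ℓ)),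
      d * heckeRep ℓ y * d⁻¹ = ιN N u * heckeRep ℓ y')
    (y : OnePoint (ZMod ℓ)) :
    ∃ (u : Gamma0 N) (y' : OnePoint (ZMod ℓ)),
      d * repsT (N * q) ℓ y * d⁻¹ = ιN N u * repsT N ℓ y' := by
  obtain ⟨u₁, y', h1⟩ := h y
  refine ⟨f₀ (tauT (N * q) ℓ y) * u₁ * (tauT N ℓ y')⁻¹, y', ?_⟩
  rw [repsT_apply201, repsT_apply201]
  have h2 : d * (ιN (N * q) (tauT (N * q) ℓ y) * heckeRep ℓ y) * d⁻¹
      = (d * ιN (N * q) (tauT (N * q) ℓ y)) * d⁻¹ * (d * heckeRep ℓ y * d⁻¹) := by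
    group
  rw [h2, hd, h1]
  simp only [map_mul, map_inv, mul_assoc, mul_inv_cancel_left, inv_mul_cancel_left]

omit [Fact ℓ.Prime] in
/-- Untwisting a relation between the representatives `repsT`. -/
theorem h2_untwist201 (y y' : OnePoint (ZMod ℓ)) (g : Gamma0 (N * q)) (Q : GL (Fin 2) ℝ)
    (e : repsT (N * q) ℓ y * Q = ιN (N * q) g * repsT (N * q) ℓ y') :
    heckeRep ℓ y * Q =
      ιN (N * q) ((tauT (N * q) ℓ y)⁻¹ * g * tauT (N * q) ℓ y') * heckeRep ℓ y' := by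
  rw [repsT_apply201, repsT_apply201] at e
  have h1 : heckeRep ℓ y * Q = (ιN (N * q) (tauT (N * q) ℓ y))⁻¹ *
      (ιN (N * q) (tauT (N * q) ℓ y) * heckeRep ℓ y * Q) := by
    group
  rw [h1, e]
  simp only [map_mul, map_inv, mul_assoc]

end TwistT

/-! ## `T_ℓ` and the transfers -/

section TT

variable {N q ℓ : ℕ} [Fact ℓ.Prime] {K : Subgroup SL(2, ℤ)} {A : Type*} [AddCommGroup A]

/-- `T_ℓ t₁ = t₁ T_ℓ` at `Γ_H`-levels (`ℓ ∤ N q` prime). -/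
theorem TK_t₁K (hK : IsMid N K) (hN : N ≠ 0) (hq : q.Prime) (hqN : ¬ q ∣ N)
    (hℓ : ¬ ℓ ∣ N * q) (ψ : Additive (Kq N q K) →+ A) :
    TK N K ℓ (t₁K N q K ψ) = t₁K N q K (TK (N * q) (Kq N q K) ℓ ψ) := by
  have hℓN : ¬ ℓ ∣ N := fun h => hℓ (dvd_mul_of_dvd_left h q)
  have := finiteIndex_range_inclKq hK hN hq hqN
  rw [TK_eq hK hℓN, TK_eq (isMid_Kq hK q) hℓ]
  refine sysTransfer_transferAlong201 (ιK_injective K) rfl (repsT_system hK hℓN)
    (repsT_system (isMid_Kq hK q) hℓ) (inclKq N q K) (inclKq_injective N q K) 1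
    (fun g => by rw [one_mul, mul_one]; rfl) ?_ ?_ ψ
  · intro y
    refine h1_of_gamma0_201 hK ?_ (isNormRep_repsT hℓN) ?_
    · rw [one_mul, inv_one, mul_one]
      exact isNormRep_of_mul201 (isNormRep_repsT hℓ y)
    · exact h1_repsT_gamma0_201 (incl N q) 1 (fun g => by rw [one_mul, mul_one]; rfl)
        (fun y => ⟨1, y, by simp⟩) y
  · intro y y' m g Q hQ e
    rw [one_mul, mul_one] at hQ
    subst hQ
    have e' := h2_untwist201 y y' (toGamma0q N q K g) (ιK K m) e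
    exact (mem_range_inclKq_iff hK m).mpr (h2_incl_T201 hℓ y y' (inclK hK m) _ e')

/-- `T_ℓ t₂ = t₂ T_ℓ` at `Γ_H`-levels (`ℓ ∤ N q` prime). -/
theorem TK_t₂K (hK : IsMid N K) (hN : N ≠ 0) (hq : q.Prime) (hqN : ¬ q ∣ N)
    (hℓ : ¬ ℓ ∣ N * q) (ψ : Additive (Kq N q K) →+ A) :
    TK N K ℓ (t₂K hK q ψ) = t₂K hK q (TK (N * q) (Kq N q K) ℓ ψ) := by
  have hℓN : ¬ ℓ ∣ N := fun h => hℓ (dvd_mul_of_dvd_left h q)
  have hℓq : ¬ ℓ ∣ q := fun h => hℓ (dvd_mul_of_dvd_right h N)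
  have hq0 : q ≠ 0 := hq.ne_zero
  have := finiteIndex_range_conjDeltaK hK hN hq hqN
  rw [TK_eq hK hℓN, TK_eq (isMid_Kq hK q) hℓ]
  refine sysTransfer_transferAlong201 (ιK_injective K) rfl (repsT_system hK hℓN)
    (repsT_system (isMid_Kq hK q) hℓ) (conjDeltaK hK q) (conjDeltaK_injective hK hq0)
    (heckeDiagMatrix q) (fun g => diag_rel hq0 (toGamma0q N q K g)) ?_ ?_ ψ
  · intro y
    refine h1_of_gamma0_201 hK (isNormRep_conj201 hq0 (isNormRep_repsT hℓ y))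
      (isNormRep_repsT hℓN) ?_
    exact h1_repsT_gamma0_201 (conjDelta N q) (heckeDiagMatrix q) (diag_rel hq0)
      (diag_conj_heckeRep hq0) y
  · intro y y' m g Q hQ e
    have e' := h2_untwist201 y y' (toGamma0q N q K g) Q e
    exact (mem_range_conjDeltaK_iff hK m).mpr
      (h2_conj201 hq0 hℓq y y' (inclK hK m) _ Q hQ e')

end TT

/-! ## `U_{q'}` and the transfers -/

section UT201

variable {N q q' : ℕ} [Fact q'.Prime] {K : Subgroup SL(2, ℤ)} {A : Type*} [AddCommGroup A]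

/-- Conjugation of the `U_{q'}` representatives by `diag(q, 1)`. -/
theorem diag_conj_repsU201 (hq : q ≠ 0) (j : ZMod q') :
    ∃ (u : Gamma0 N) (j' : ZMod q'),
      heckeDiagMatrix q * repsU q' j * (heckeDiagMatrix q)⁻¹ = ιN N u * repsU q' j' := by
  have hq'0 : q' ≠ 0 := (Fact.out : q'.Prime).ne_zero
  obtain ⟨T, Y, hmod⟩ : ∃ (T : ℕ) (Y : ZMod q'),
      ((Y.val : ℕ) : ℝ) + (T : ℝ) * q' = (q : ℝ) * j.val := by
    refine ⟨q * j.val / q', ((q * j.val : ℕ) : ZMod q'), ?_⟩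
    rw [ZMod.val_natCast]
    have := Nat.mod_add_div (q * j.val) q'
    have h2 : (((q * j.val) % q' + q' * (q * j.val / q') : ℕ) : ℝ) = ((q * j.val : ℕ) : ℝ) := by
      rw [this]
    push_cast at h2
    linarith
  obtain ⟨u00, u01, u10, u11⟩ := mkGamma0_apply N 1 (T : ℤ) 0 1 (by ring) (dvd_zero _)
  refine ⟨mkGamma0 N 1 (T : ℤ) 0 1 (by ring) (dvd_zero _), Y, ?_⟩
  rw [mul_inv_eq_iff_eq_mul]
  apply gl_ext <;>
    simp only [repsU, coe_mul_apply, coe_ιN_apply, val_heckeMatrix hq'0, val_heckeDiagMatrix hq,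
      Matrix.of_apply, Matrix.cons_val', Matrix.cons_val_zero, Matrix.cons_val_one,
      Matrix.cons_val_fin_one, u00, u01, u10, u11] <;>
    push_cast
  · ring
  · linear_combination (-1 : ℝ) * hmod
  · ring
  · ring

/-- `U_{q'} t₁ = t₁ U_{q'}` at `Γ_H`-levels (`q' ∣ N` prime). -/
theorem UK_t₁K (hK : IsMid N K) (hN : N ≠ 0) (hq : q.Prime) (hqN : ¬ q ∣ N) (hq' : q' ∣ N)
    (ψ : Additive (Kq N q K) →+ A) :
    UK K q' (t₁K N q K ψ) = t₁K N q K (UK (Kq N q K) q' ψ) := by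
  have hq'' : q' ∣ N * q := dvd_mul_of_dvd_left hq' q
  have := finiteIndex_range_inclKq hK hN hq hqN
  rw [UK_eq hK hq', UK_eq (isMid_Kq hK q) hq'']
  refine sysTransfer_transferAlong201 (ιK_injective K) rfl (repsU_system hK hq')
    (repsU_system (isMid_Kq hK q) hq'') (inclKq N q K) (inclKq_injective N q K) 1
    (fun g => by rw [one_mul, mul_one]; rfl) (fun y => ⟨1, y, by simp⟩) ?_ ψ
  intro y y' m g Q hQ e
  rw [one_mul, mul_one] at hQ
  subst hQ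
  exact (mem_range_inclKq_iff hK m).mpr
    (h2_incl_U201 hq hqN hq' y y' (inclK hK m) (toGamma0q N q K g) e)

/-- `U_{q'} t₂ = t₂ U_{q'}` at `Γ_H`-levels (`q' ∣ N` prime). -/
theorem UK_t₂K (hK : IsMid N K) (hN : N ≠ 0) (hq : q.Prime) (hqN : ¬ q ∣ N) (hq' : q' ∣ N)
    (ψ : Additive (Kq N q K) →+ A) :
    UK K q' (t₂K hK q ψ) = t₂K hK q (UK (Kq N q K) q' ψ) := by
  have hq'' : q' ∣ N * q := dvd_mul_of_dvd_left hq' q
  have hq0 : q ≠ 0 := hq.ne_zero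
  have hq'q : ¬ q' ∣ q := by
    intro h
    have h1 := (Nat.prime_dvd_prime_iff_eq (Fact.out : q'.Prime) hq).mp h
    exact hqN (h1 ▸ hq')
  have := finiteIndex_range_conjDeltaK hK hN hq hqN
  rw [UK_eq hK hq', UK_eq (isMid_Kq hK q) hq'']
  refine sysTransfer_transferAlong201 (ιK_injective K) rfl (repsU_system hK hq')
    (repsU_system (isMid_Kq hK q) hq'') (conjDeltaK hK q) (conjDeltaK_injective hK hq0)
    (heckeDiagMatrix q) (fun g => diag_rel hq0 (toGamma0q N q K g)) ?_ ?_ ψ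
  · intro y
    exact h1_of_gamma0_201 hK (isNormRep_conj201 hq0 (isNormRep_repsU q' y))
      (isNormRep_repsU q') (diag_conj_repsU201 hq0 y)
  · intro y y' m g Q hQ e
    exact (mem_range_conjDeltaK_iff hK m).mpr
      (h2_conj201 hq0 hq'q (y : OnePoint (ZMod q')) (y' : OnePoint (ZMod q')) (inclK hK m)
        (toGamma0q N q K g) Q hQ e)

end UT201

end Fermat.Agent.S59.TW.H201
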