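import Mathlib
import Fermat.Agent.S59.TW.H201.KDegDefs

/-!
# S59 / HARD, cell TW: the degeneracy maps at `Γ_H`-levels commute with the diamond operators
  (helper201)

`g' ∈ Γ₀(N q)`; `⟨g'⟩` on `X_{K_{N q}}` is `H653.diamond (isMid_Kq hK q) g'`, and on `X_K` it is
`H653.diamond hK (incl N q g')` (`= H653.diamond hK (conjDelta N q g')`, `diamond_conjDelta`).

* `r₁K_diamond`, `r₂K_diamond` : `r_i (⟨g'⟩ φ) = ⟨g'⟩ (r_i φ)`;
* `t₁K_diamond`, `t₂K_diamond` : `t_i (⟨g'⟩ ψ) = ⟨g'⟩ (t_i ψ)`;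
* the same for `diamondU` (`r₁K_diamondU`, ...): `u' ∈ (ℤ/N q)ˣ` on `X_{K_{N q}}` and its image
  `u ∈ (ℤ/N)ˣ` on `X_K`.
-/

set_option autoImplicit false

namespace Fermat.Agent.S59.TW.H201

open CongruenceSubgroup Matrix.SpecialLinearGroup
open Fermat.Agent.S41.Spec Fermat.Agent.S59.TW.H653
open scoped MatrixGroups

variable {N : ℕ} {K : Subgroup SL(2, ℤ)} {A : Type*} [AddCommGroup A]

/-- On `X_K` the diamond operators of `incl g'` and of `c_δ(g')` agree. -/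
theorem diamond_conjDelta (hK : IsMid N K) (q : ℕ) (g' : Gamma0 (N * q)) (φ : Additive K →+ A) :
    diamond hK (conjDelta N q g') φ = diamond hK (incl N q g') φ :=
  diamond_congr hK (dUnit_conjDelta N q g') φ

theorem inclKq_conjK (hK : IsMid N K) (q : ℕ) (g' : Gamma0 (N * q)) (γ : Kq N q K) :
    inclKq N q K (conjK (isMid_Kq hK q) g' γ) = conjK hK (incl N q g') (inclKq N q K γ) := by
  apply Subtype.ext
  rfl

theorem conjDeltaK_conjK (hK : IsMid N K) (q : ℕ) (g' : Gamma0 (N * q)) (γ : Kq N q K) :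
    conjDeltaK hK q (conjK (isMid_Kq hK q) g' γ) =
      conjK hK (conjDelta N q g') (conjDeltaK hK q γ) := by
  apply inclK_injective hK
  have h1 : toGamma0q N q K (conjK (isMid_Kq hK q) g' γ) = g' * toGamma0q N q K γ * g'⁻¹ := by
    apply Subtype.ext
    simp
  have h2 : inclK hK (conjK hK (conjDelta N q g') (conjDeltaK hK q γ)) =
      conjDelta N q g' * inclK hK (conjDeltaK hK q γ) * (conjDelta N q g')⁻¹ := by
    apply Subtype.ext
    rfl
  rw [h2, inclK_conjDeltaK, inclK_conjDeltaK, h1, map_mul, map_mul, map_inv]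

/-- `r₁ ⟨g'⟩ = ⟨g'⟩ r₁`. -/
theorem r₁K_diamond (hK : IsMid N K) (q : ℕ) (g' : Gamma0 (N * q)) (φ : Additive K →+ A) :
    r₁K N q K (diamond hK (incl N q g') φ) = diamond (isMid_Kq hK q) g' (r₁K N q K φ) := by
  refine AddMonoidHom.ext fun γ' => ?_
  obtain ⟨γ, rfl⟩ : ∃ γ : Kq N q K, Additive.ofMul γ = γ' := ⟨Additive.toMul γ', rfl⟩
  rw [r₁K_apply, diamond_apply, diamond_apply, r₁K_apply, inclKq_conjK]

/-- `r₂ ⟨g'⟩ = ⟨g'⟩ r₂`. -/
theorem r₂K_diamond (hK : IsMid N K) (q : ℕ) (g' : Gamma0 (N * q)) (φ : Additive K →+ A) :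
    r₂K hK q (diamond hK (incl N q g') φ) = diamond (isMid_Kq hK q) g' (r₂K hK q φ) := by
  rw [← diamond_conjDelta]
  refine AddMonoidHom.ext fun γ' => ?_
  obtain ⟨γ, rfl⟩ : ∃ γ : Kq N q K, Additive.ofMul γ = γ' := ⟨Additive.toMul γ', rfl⟩
  rw [r₂K_apply, diamond_apply, diamond_apply, r₂K_apply, conjDeltaK_conjK]

/-- `t₁ ⟨g'⟩ = ⟨g'⟩ t₁`. -/
theorem t₁K_diamond (hK : IsMid N K) (q : ℕ) (g' : Gamma0 (N * q))
    (ψ : Additive (Kq N q K) →+ A) :
    t₁K N q K (diamond (isMid_Kq hK q) g' ψ) = diamond hK (incl N q g') (t₁K N q K ψ) :=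
  Fermat.Agent.S41.H924.transferAlong_comp_aut (inclKq N q K) (conjK (isMid_Kq hK q) g')
    (conjK hK (incl N q g')) (fun γ => (inclKq_conjK hK q g' γ).symm) ψ

/-- `t₂ ⟨g'⟩ = ⟨g'⟩ t₂`. -/
theorem t₂K_diamond (hK : IsMid N K) (q : ℕ) (g' : Gamma0 (N * q))
    (ψ : Additive (Kq N q K) →+ A) :
    t₂K hK q (diamond (isMid_Kq hK q) g' ψ) = diamond hK (incl N q g') (t₂K hK q ψ) := by
  rw [← diamond_conjDelta]
  exact Fermat.Agent.S41.H924.transferAlong_comp_aut (conjDeltaK hK q)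
    (conjK (isMid_Kq hK q) g') (conjK hK (conjDelta N q g'))
    (fun γ => (conjDeltaK_conjK hK q g' γ).symm) ψ

/-! ## The same for `diamondU` -/

section Units

variable [NeZero N] {q : ℕ} [NeZero (N * q)]

/-- The reduction `(ℤ/N q)ˣ → (ℤ/N)ˣ`. -/
def redU (N q : ℕ) : (ZMod (N * q))ˣ →* (ZMod N)ˣ := ZMod.unitsMap (Dvd.intro q rfl)

theorem redU_surjective (N q : ℕ) [NeZero (N * q)] : Function.Surjective (redU N q) :=
  ZMod.unitsMap_surjective _

omit [NeZero (N * q)] in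
theorem diamondU_redU (hK : IsMid N K) {g' : Gamma0 (N * q)} {u' : (ZMod (N * q))ˣ}
    (hg' : dUnit (N * q) g' = u') (φ : Additive K →+ A) :
    diamondU hK (redU N q u') φ = diamond hK (incl N q g') φ := by
  apply diamondU_eq
  rw [← hg']
  exact (unitsMap_dUnit N q g').symm

theorem r₁K_diamondU (hK : IsMid N K) (u' : (ZMod (N * q))ˣ) (φ : Additive K →+ A) :
    r₁K N q K (diamondU hK (redU N q u') φ) =
      diamondU (isMid_Kq hK q) u' (r₁K N q K φ) := by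
  obtain ⟨g', hg'⟩ := dUnit_surjective (M := N * q) u'
  rw [diamondU_redU hK hg', diamondU_eq (isMid_Kq hK q) hg', r₁K_diamond]

theorem r₂K_diamondU (hK : IsMid N K) (u' : (ZMod (N * q))ˣ) (φ : Additive K →+ A) :
    r₂K hK q (diamondU hK (redU N q u') φ) =
      diamondU (isMid_Kq hK q) u' (r₂K hK q φ) := by
  obtain ⟨g', hg'⟩ := dUnit_surjective (M := N * q) u'
  rw [diamondU_redU hK hg', diamondU_eq (isMid_Kq hK q) hg', r₂K_diamond]

theorem t₁K_diamondU (hK : IsMid N K) (u' : (ZMod (N * q))ˣ) (ψ : Additive (Kq N q K) →+ A) :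
    t₁K N q K (diamondU (isMid_Kq hK q) u' ψ) =
      diamondU hK (redU N q u') (t₁K N q K ψ) := by
  obtain ⟨g', hg'⟩ := dUnit_surjective (M := N * q) u'
  rw [diamondU_redU hK hg', diamondU_eq (isMid_Kq hK q) hg', t₁K_diamond]

theorem t₂K_diamondU (hK : IsMid N K) (u' : (ZMod (N * q))ˣ) (ψ : Additive (Kq N q K) →+ A) :
    t₂K hK q (diamondU (isMid_Kq hK q) u' ψ) =
      diamondU hK (redU N q u') (t₂K hK q ψ) := by
  obtain ⟨g', hg'⟩ := dUnit_surjective (M := N * q) u'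
  rw [diamondU_redU hK hg', diamondU_eq (isMid_Kq hK q) hg', t₂K_diamond]

omit [NeZero N] in
/-- On `X_{K_{N q}}` the diamond operator of `u'` depends only on the image of `u'` in
`(ℤ/N)ˣ`. -/
theorem diamondU_Kq_congr (hK : IsMid N K) {u' v' : (ZMod (N * q))ˣ}
    (h : redU N q u' = redU N q v') (ψ : Additive (Kq N q K) →+ A) :
    diamondU (isMid_Kq hK q) u' ψ = diamondU (isMid_Kq hK q) v' ψ := by
  obtain ⟨g, hg⟩ := dUnit_surjective (M := N * q) (u' * v'⁻¹)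
  have h1 : u' = (u' * v'⁻¹) * v' := by rw [inv_mul_cancel_right]
  have h2 : dUnit N (incl N q g) = 1 := by
    rw [← unitsMap_dUnit, hg]
    show redU N q (u' * v'⁻¹) = 1
    rw [map_mul, map_inv, h, mul_inv_cancel]
  have h3 : (g : SL(2, ℤ)) ∈ Kq N q K :=
    ⟨hK.mem_of_dUnit_eq_one (g := incl N q g) h2, g.2⟩
  rw [h1, diamondU_mul, ← hg, diamondU_of_mem (isMid_Kq hK q) h3]

end Units

end Fermat.Agent.S59.TW.H201
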