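import Mathlib
import Fermat.Agent.S59.TW.H201.KDegDiamond
import Fermat.Agent.S59.TW.H653.Systems

/-!
# S59 / HARD, cell TW: one-prime degeneracy at `Γ_H`-levels — the geometric identities, as `Prop`s
  (helper201; consumers: helper571 `S59/H571/DegRelTw.lean`, helper719, helper53)

Level `N ≠ 0`, `Γ₁(N) ≤ K ≤ Γ₀(N)`, `q ∤ N` prime, `K_{N q} = K ⊓ Γ₀(N q)`.
`T = H653.TK N K q`, `U = H653.UK (Kq N q K) q`, `r₁, r₂, t₁, t₂` of `KDegDefs.lean`.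
`⟨q⟩` is the diamond operator of ANY `g' ∈ Γ₀(N q)` whose lower right entry is `≡ q` modulo `N`
(`IsQElt`): `DN = H653.diamond hK (incl N q g')` on `X_K` and
`DQ = H653.diamond (isMid_Kq hK q) g'` on `X_{K_{N q}}`.

The identities (= the five geometric fields of helper571's `DegRelTw`; the other eight fields
are proved in `KDegDefs.lean`, `KDegDiamond.lean` and `S59/TW/H653`):

* `KT2R1Statement` : `t₂ r₁ = T`;
* `KT1R2Statement` : `⟨q⟩ t₁ r₂ = T`;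
* `KUr1Statement`  : `U r₁ = r₁ T - ⟨q⟩ r₂`;
* `KUr2Statement`  : `U r₂ = q r₁`;
* `KUUStatement`   : `U² = ⟨q⟩ + U r₁ t₂ - ⟨q⟩ r₁ t₁`.
-/

set_option autoImplicit false

namespace Fermat.Agent.S59.TW.H201

open CongruenceSubgroup Matrix.SpecialLinearGroup
open Fermat.Agent.S41.Spec Fermat.Agent.S59.TW.H653
open scoped MatrixGroups

universe u

/-- `g' ∈ Γ₀(N q)` has lower right entry `≡ q` modulo `N`. -/
def IsQElt (N q : ℕ) (g' : Gamma0 (N * q)) : Prop :=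
  ((((g' : SL(2, ℤ)) 1 1 : ℤ) : ZMod N)) = (q : ZMod N)

/-- `t₂ r₁ = T_q`. -/
def KT2R1Statement : Prop :=
  ∀ (N q : ℕ) [Fact q.Prime] (_hqN : ¬ q ∣ N) (_hN : N ≠ 0) (K : Subgroup SL(2, ℤ))
    (hK : IsMid N K) (A : Type u) [AddCommGroup A] (φ : Additive K →+ A),
    t₂K hK q (r₁K N q K φ) = TK N K q φ

/-- `⟨q⟩ t₁ r₂ = T_q`. -/
def KT1R2Statement : Prop :=
  ∀ (N q : ℕ) [Fact q.Prime] (_hqN : ¬ q ∣ N) (_hN : N ≠ 0) (K : Subgroup SL(2, ℤ))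
    (hK : IsMid N K) (g' : Gamma0 (N * q)) (_hg' : IsQElt N q g')
    (A : Type u) [AddCommGroup A] (φ : Additive K →+ A),
    diamond hK (incl N q g') (t₁K N q K (r₂K hK q φ)) = TK N K q φ

/-- `U_q r₁ = r₁ T_q - ⟨q⟩ r₂`. -/
def KUr1Statement : Prop :=
  ∀ (N q : ℕ) [Fact q.Prime] (_hqN : ¬ q ∣ N) (_hN : N ≠ 0) (K : Subgroup SL(2, ℤ))
    (hK : IsMid N K) (g' : Gamma0 (N * q)) (_hg' : IsQElt N q g')
    (A : Type u) [AddCommGroup A] (φ : Additive K →+ A),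
    UK (Kq N q K) q (r₁K N q K φ) =
      r₁K N q K (TK N K q φ) - diamond (isMid_Kq hK q) g' (r₂K hK q φ)

/-- `U_q r₂ = q r₁`. -/
def KUr2Statement : Prop :=
  ∀ (N q : ℕ) [Fact q.Prime] (_hqN : ¬ q ∣ N) (_hN : N ≠ 0) (K : Subgroup SL(2, ℤ))
    (hK : IsMid N K) (A : Type u) [AddCommGroup A] (φ : Additive K →+ A),
    UK (Kq N q K) q (r₂K hK q φ) = q • r₁K N q K φ

/-- `U_q² = ⟨q⟩ + U_q r₁ t₂ - ⟨q⟩ r₁ t₁`. -/
def KUUStatement : Prop :=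
  ∀ (N q : ℕ) [Fact q.Prime] (_hqN : ¬ q ∣ N) (_hN : N ≠ 0) (K : Subgroup SL(2, ℤ))
    (hK : IsMid N K) (g' : Gamma0 (N * q)) (_hg' : IsQElt N q g')
    (A : Type u) [AddCommGroup A] (ψ : Additive (Kq N q K) →+ A),
    UK (Kq N q K) q (UK (Kq N q K) q ψ) =
      diamond (isMid_Kq hK q) g' ψ + UK (Kq N q K) q (r₁K N q K (t₂K hK q ψ)) -
        diamond (isMid_Kq hK q) g' (r₁K N q K (t₁K N q K ψ))

/-- An element of `Γ₀(N q)` with lower right entry `≡ q` modulo `N` exists. -/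
theorem exists_isQElt {N q : ℕ} (hN : N ≠ 0) (hq : q.Prime) (hqN : ¬ q ∣ N) :
    ∃ g' : Gamma0 (N * q), IsQElt N q g' := by
  have : NeZero (N * q) := ⟨Nat.mul_ne_zero hN hq.ne_zero⟩
  have hcop : Nat.Coprime q N := (Nat.Prime.coprime_iff_not_dvd hq).mpr hqN
  obtain ⟨s, hs⟩ := exists_Gamma0q_dUnit N q (ZMod.unitOfCoprime q hcop)
  refine ⟨s, ?_⟩
  have h1 := congrArg (fun u : (ZMod N)ˣ => (u : ZMod N)) hs
  simp only [coe_dUnit, ZMod.coe_unitOfCoprime] at h1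
  exact h1

end Fermat.Agent.S59.TW.H201
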