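import Mathlib
import Fermat.Agent.S59.TW.H201.KDegSpec
import Fermat.Agent.S41.H581.TransferBasic

/-!
# S59 / HARD, cell TW: the operators at `Γ_H`-levels as linear maps (helper201)

`A` a module over a commutative ring `O`; `X_K(A) = Hom(K, A)` is an `O`-module.

* `r₁KL`, `r₂KL`, `t₁KL`, `t₂KL`, `TKL`, `UKL`, `diamondL` : the operators of `KDegDefs.lean` and
  of `S59/TW/H653` as `O`-linear maps;
* `diamondL_pow_eq_one` : `⟨g⟩ ^ m = 1` if `g ^ m ∈ K`.
-/

set_option autoImplicit false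

namespace Fermat.Agent.S59.TW.H201

open CongruenceSubgroup Matrix.SpecialLinearGroup
open Fermat.Agent.S41.Spec Fermat.Agent.S59.TW.H653
open scoped MatrixGroups

universe u v

section Ops

variable (O : Type v) [CommRing O] (A : Type u) [AddCommGroup A] [Module O A]

/-- Multiplication by `c` on the coefficients. -/
def coeffSmul201 (c : O) : A →+ A := DistribSMul.toAddMonoidHom A c

variable {O A}

theorem smul_eq_coeffSmul201 {G : Type*} [AddMonoid G] (c : O) (φ : G →+ A) :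
    c • φ = (coeffSmul201 O A c).comp φ := rfl

variable (O A) {N : ℕ} {K : Subgroup SL(2, ℤ)}

/-- `r₁` as a linear map. -/
def r₁KL (N q : ℕ) (K : Subgroup SL(2, ℤ)) :
    (Additive K →+ A) →ₗ[O] (Additive (Kq N q K) →+ A) where
  toFun := r₁K N q K
  map_add' _ _ := rfl
  map_smul' _ _ := rfl

/-- `r₂` as a linear map. -/
def r₂KL (hK : IsMid N K) (q : ℕ) : (Additive K →+ A) →ₗ[O] (Additive (Kq N q K) →+ A) where
  toFun := r₂K hK q
  map_add' _ _ := rfl
  map_smul' _ _ := rfl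

/-- `t₁` as a linear map. -/
noncomputable def t₁KL (N q : ℕ) (K : Subgroup SL(2, ℤ)) :
    (Additive (Kq N q K) →+ A) →ₗ[O] (Additive K →+ A) where
  toFun := t₁K N q K
  map_add' φ ψ := Fermat.Agent.S41.H581.transferAlong_add (inclKq N q K) φ ψ
  map_smul' c φ := by
    rw [smul_eq_coeffSmul201]
    exact Fermat.Agent.S41.H581.transferAlong_comp (inclKq N q K) (coeffSmul201 O A c) φ

/-- `t₂` as a linear map. -/
noncomputable def t₂KL (hK : IsMid N K) (q : ℕ) :
    (Additive (Kq N q K) →+ A) →ₗ[O] (Additive K →+ A) where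
  toFun := t₂K hK q
  map_add' φ ψ := Fermat.Agent.S41.H581.transferAlong_add (conjDeltaK hK q) φ ψ
  map_smul' c φ := by
    rw [smul_eq_coeffSmul201]
    exact Fermat.Agent.S41.H581.transferAlong_comp (conjDeltaK hK q) (coeffSmul201 O A c) φ

/-- `T_ℓ` (`ℓ ∤ N`) on `X_K(A)` as a linear map. -/
noncomputable def TKL (hK : IsMid N K) {ℓ : ℕ} [Fact ℓ.Prime] (hℓ : ¬ ℓ ∣ N) :
    (Additive K →+ A) →ₗ[O] (Additive K →+ A) where
  toFun := TK N K ℓ
  map_add' φ ψ := TK_add hK hℓ φ ψ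
  map_smul' c φ := by
    rw [smul_eq_coeffSmul201]
    exact TK_comp hK hℓ (coeffSmul201 O A c) φ

/-- `U_q` (`q ∣ N`) on `X_K(A)` as a linear map. -/
noncomputable def UKL (hK : IsMid N K) {q : ℕ} [Fact q.Prime] (hq : q ∣ N) :
    (Additive K →+ A) →ₗ[O] (Additive K →+ A) where
  toFun := UK K q
  map_add' φ ψ := UK_add hK hq φ ψ
  map_smul' c φ := by
    rw [smul_eq_coeffSmul201]
    exact UK_comp hK hq (coeffSmul201 O A c) φ

/-- The diamond operator of `g ∈ Γ₀(N)` on `X_K(A)` as a linear map. -/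
def diamondL (hK : IsMid N K) (g : Gamma0 N) : (Additive K →+ A) →ₗ[O] (Additive K →+ A) where
  toFun := diamond hK g
  map_add' _ _ := rfl
  map_smul' _ _ := rfl

@[simp] theorem r₁KL_apply (N q : ℕ) (K : Subgroup SL(2, ℤ)) (φ : Additive K →+ A) :
    r₁KL O A N q K φ = r₁K N q K φ := rfl

@[simp] theorem r₂KL_apply (hK : IsMid N K) (q : ℕ) (φ : Additive K →+ A) :
    r₂KL O A hK q φ = r₂K hK q φ := rfl

@[simp] theorem t₁KL_apply (N q : ℕ) (K : Subgroup SL(2, ℤ)) (ψ : Additive (Kq N q K) →+ A) :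
    t₁KL O A N q K ψ = t₁K N q K ψ := rfl

@[simp] theorem t₂KL_apply (hK : IsMid N K) (q : ℕ) (ψ : Additive (Kq N q K) →+ A) :
    t₂KL O A hK q ψ = t₂K hK q ψ := rfl

@[simp] theorem TKL_apply (hK : IsMid N K) {ℓ : ℕ} [Fact ℓ.Prime] (hℓ : ¬ ℓ ∣ N)
    (φ : Additive K →+ A) : TKL O A hK hℓ φ = TK N K ℓ φ := rfl

@[simp] theorem UKL_apply (hK : IsMid N K) {q : ℕ} [Fact q.Prime] (hq : q ∣ N)
    (φ : Additive K →+ A) : UKL O A hK hq φ = UK K q φ := rfl

@[simp] theorem diamondL_apply (hK : IsMid N K) (g : Gamma0 N) (φ : Additive K →+ A) :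
    diamondL O A hK g φ = diamond hK g φ := rfl

theorem diamondL_pow_apply (hK : IsMid N K) (g : Gamma0 N) (m : ℕ) (φ : Additive K →+ A) :
    ((diamondL O A hK g) ^ m) φ = diamond hK (g ^ m) φ := by
  induction m generalizing φ with
  | zero => rw [pow_zero, pow_zero, diamond_one]; rfl
  | succ m ih =>
    rw [pow_succ, Module.End.mul_apply, ih, diamondL_apply, pow_succ, diamond_mul, diamond_comm]

/-- `⟨g⟩ ^ m = 1` if `g ^ m ∈ K`. -/
theorem diamondL_pow_eq_one (hK : IsMid N K) (g : Gamma0 N) (m : ℕ)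
    (hg : ((g ^ m : Gamma0 N) : SL(2, ℤ)) ∈ K) : (diamondL O A hK g) ^ m = 1 := by
  refine LinearMap.ext fun φ => ?_
  rw [diamondL_pow_apply, diamond_of_mem hK hg]
  rfl

end Ops

end Fermat.Agent.S59.TW.H201
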